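import Fermat.Agent.Lib.Frob.Interfaces
import Fermat.Agent.Lib.Frob.A2.H230.Main

/-!
# Shared library `Frob`, piece A2: the deliverable `frobRelationFin : FrobRelationFin`

Proof: `Fermat/Agent/Lib/Frob/A2/H230/Main.lean` (helper230 assembly) from
* helper311 `S52/H311` (exact parallelogram law for the degree height),
* helper621 `S52/H621` (Manin count, degree of a composition of rational functions),
* helper127 `S52/H127/QuadForm` (quadratic form algebra),
* helper240 `Lib/Frob/A2/H240/ShortNF` + `Lib/VC` (reduction to short Weierstrass form),
* helper230 `Lib/FrobRel` (generic point implies all points) and `Lib/Frob/A2/H230` (odd points).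
-/

set_option autoImplicit false

namespace Fermat.Agent.Lib.Frob

/-- **A2**: the Hasse–Weil Frobenius relation `Φ² - a_ℓ Φ + ℓ = 0` on `E(k)` for every
Weierstrass curve `E` over `ZMod ℓ` (`ℓ ≥ 5` prime, `Δ ≠ 0`) and every field `k` over `ZMod ℓ`. -/
theorem frobRelationFin : FrobRelationFin := A2.H230.frobRelationFin_H230

end Fermat.Agent.Lib.Frob
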